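import Fermat.Agent.DiagonalRep.Series
import Fermat.Agent.WaringHua.Local

/-!
# Eight cubes and twice a cube
-/

set_option autoImplicit false

noncomputable section

namespace FA.DiagonalRep

open Finset

theorem residues_mod_twentySeven : ∀ r : Fin 27, ∃ (m : Fin 7) (b d : Fin 3),
    (1 + (m : ℕ) + (b : ℕ) ^ 3 + 2 * (d : ℕ) ^ 3) % 27 = (r : ℕ) := by decide

/-- A pattern at every prime. -/
theorem pattern_eight_cubes (N p : ℕ) (hp : p.Prime) :
    RepPattern 3 (![1, 1, 1, 1, 1, 1, 1, 1, 2] : Fin 9 → ℕ) N p := by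
  rcases eq_or_ne p 3 with rfl | h3
  · obtain ⟨m, b, d, h⟩ := residues_mod_twentySeven ⟨N % 27, Nat.mod_lt _ (by norm_num)⟩
    refine ⟨Fin.cons 1 fun i : Fin 8 =>
        if (i : ℕ) < (m : ℕ) then 1 else if (i : ℕ) = 6 then (b : ℕ)
          else if (i : ℕ) = 7 then (d : ℕ) else 0,
      0, 0, 1, by simp, by norm_num, Nat.zero_le _, by simp, ?_⟩
    have h' : (1 + (m : ℕ) + (b : ℕ) ^ 3 + 2 * (d : ℕ) ^ 3) ≡ N [MOD 27] := by
      rw [Nat.ModEq]
      exact h
    have hτ : padicValNat 3 3 = 1 := by simp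
    rw [hτ]
    have e := (Nat.modEq_iff_dvd.1 h'.symm)
    convert e using 1
    · norm_num
    · simp only [Fin.sum_univ_succ, Fin.cons_zero, Fin.cons_succ]
      fin_cases m <;> simp <;> ring
  · have hp3 : ¬p ∣ 3 := fun h => h3 ((Nat.prime_dvd_prime_iff_eq hp Nat.prime_three).1 h)
    rcases eq_or_ne p 2 with rfl | h2
    · refine ⟨Fin.cons 1 fun i : Fin 8 => if (i : ℕ) = 0 then (N + 1) % 2 else 0,
        0, 0, 1, by simp, by norm_num, Nat.zero_le _, by simp, ?_⟩
      rw [padicValNat.eq_zero_of_not_dvd hp3]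
      simp only [Fin.sum_univ_succ, Fin.cons_zero, Fin.cons_succ]
      rcases Nat.mod_two_eq_zero_or_one N with h | h
      · rw [show (N + 1) % 2 = 1 by omega]
        simp
        omega
      · rw [show (N + 1) % 2 = 0 by omega]
        simp
        omega
    · refine RepPattern.of_coprime (by norm_num) (by norm_num) hp hp3 fun i => ?_
      have h1 := hp.ne_one
      have h2' : ¬p ∣ 2 := fun h => h2 ((Nat.prime_dvd_prime_iff_eq hp Nat.prime_two).1 h)
      fin_cases i <;> simpa

end FA.DiagonalRep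

end
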