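import Fermat.Agent.DiagonalRep.Minor
import Fermat.Agent.WaringAsymptotic.Local

/-!
# The major arcs for `∑ a i x i ^ k = N`

The coefficient of the arc at `r / q` is `(∏ a i) ^ (-1/k) ∏ S (q, a i r) / q · e (-N r / q)`; the
main term is that of Waring's problem.
-/

set_option autoImplicit false

noncomputable section

namespace FA.DiagonalRep

open Finset FA.WaringAsymptotic
open FA.BirchForms (rootFloor_div_le factor exists_term_le norm_waringSum_mul_sub_le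
  norm_prod_sub_prod_le)
open FA.ThreePrimes hiding mainTerm singularSeries singularTerm
open scoped Real

/-- The representations of `N` by `∑ a i x i ^ k` with positive `x`. -/
def coefReps (k : ℕ) {s : ℕ} (a : Fin s → ℕ) (N : ℕ) : ℕ :=
  ((Fintype.piFinset fun _ : Fin s => Icc 1 N).filter fun z => ∑ i, a i * z i ^ k = N).card

/-- `(∏ a i) ^ (-1/k)`. -/
def scaleAt (k : ℕ) {s : ℕ} (a : Fin s → ℕ) : ℝ := ∏ i, (a i : ℝ) ^ (-(1 / (k : ℝ)))

/-- The coefficient of an arc. -/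
def coefAt (k : ℕ) {s : ℕ} (a : Fin s → ℕ) (N : ℕ) (z : Σ _ : ℕ, ℕ) : ℂ :=
  (scaleAt k a : ℂ) * (factor k z.1 (fun i => (a i : ℤ)) z.2 * eAdd (-((N : ℝ) * centre z)))

/-- The term of the singular series. -/
def termAt (k : ℕ) {s : ℕ} (a : Fin s → ℕ) (N q : ℕ) : ℂ :=
  ∑ r ∈ unitResidues q, factor k q (fun i => (a i : ℤ)) r * localFactor k 0 N q r

theorem localFactor_zero (k N q r : ℕ) : localFactor k 0 N q r = eAdd (-((N : ℝ) * r / q)) := by
  rw [localFactor, pow_zero, one_mul]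

theorem termAt_zero (k : ℕ) {s : ℕ} (a : Fin s → ℕ) (N : ℕ) : termAt k a N 0 = 0 := by
  simp [termAt, unitResidues]

theorem termAt_one (k : ℕ) {s : ℕ} (a : Fin s → ℕ) (N : ℕ) : termAt k a N 1 = 1 := by
  simp [termAt, factor, unitResidues, densityFactor, completeSum, localFactor_zero]

theorem scaleAt_mem {k s : ℕ} {a : Fin s → ℕ} (ha : ∀ i, 0 < a i) :
    0 < scaleAt k a ∧ scaleAt k a ≤ 1 :=
  ⟨prod_pos fun i _ => Real.rpow_pos_of_pos (Nat.cast_pos.2 (ha i)) _,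
    prod_le_one (fun i _ => by positivity) fun i _ =>
      Real.rpow_le_one_of_one_le_of_nonpos (by exact_mod_cast ha i)
        (neg_nonpos.2 (by positivity))⟩

/-- **The terms are `O (q ^ -(7/5))`**, uniformly in `N`. -/
theorem exists_termAt_le {k s : ℕ} (hk : 2 ≤ k) (hs : 3 * k ≤ s) {a : Fin s → ℕ}
    (ha : ∀ i, 0 < a i) : ∃ C : ℝ, 1 ≤ C ∧ ∀ q : ℕ,
      (∑ r ∈ unitResidues q, ‖factor k q (fun i => (a i : ℤ)) r‖ ≤
        C * (q : ℝ) ^ (-(7 / 5) : ℝ)) ∧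
      ∀ N, ‖termAt k a N q‖ ≤ C * (q : ℝ) ^ (-(7 / 5) : ℝ) := by
  obtain ⟨C, hC, h⟩ := exists_term_le hk hs (c := fun i => (a i : ℤ))
    fun i => Int.natCast_ne_zero.2 (ha i).ne'
  refine ⟨C, hC, fun q => ⟨(h q).1, fun N => ?_⟩⟩
  refine (norm_sum_le _ _).trans (le_trans (le_of_eq (sum_congr rfl fun r _ => ?_)) (h q).1)
  rw [norm_mul, localFactor_zero, norm_eAdd, mul_one]

/-- **The tail of the singular series**, uniformly in `N`. -/
theorem exists_termAt_tail {k s : ℕ} (hk : 2 ≤ k) (hs : 3 * k ≤ s) {a : Fin s → ℕ}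
    (ha : ∀ i, 0 < a i) : ∃ C : ℝ, 0 < C ∧ ∀ N Q : ℕ, Summable (termAt k a N) ∧
      ‖∑ q ∈ Icc 1 Q, termAt k a N q - ∑' q, termAt k a N q‖ ≤
        C * ((Q + 1 : ℕ) : ℝ) ^ (-(1 / 5) : ℝ) ∧
      ‖∑' q, termAt k a N q‖ ≤ C := by
  obtain ⟨C, hC, h⟩ := exists_termAt_le hk hs ha
  have hsum : Summable fun q : ℕ => (q : ℝ) ^ (-(6 / 5) : ℝ) :=
    Real.summable_nat_rpow.2 (by norm_num)
  obtain ⟨Z, hZ⟩ : ∃ Z, Z = ∑' q : ℕ, (q : ℝ) ^ (-(6 / 5) : ℝ) := ⟨_, rfl⟩
  have hZ0 : 0 ≤ Z := hZ ▸ tsum_nonneg fun q => by positivity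
  refine ⟨C * Z + 1, by positivity, fun N Q => ?_⟩
  have hbd : ∀ q : ℕ, ‖termAt k a N q‖ ≤ C * (q : ℝ) ^ (-(6 / 5) : ℝ) := fun q => by
    rcases Nat.eq_zero_or_pos q with rfl | hq
    · simp [termAt_zero]
    refine ((h q).2 N).trans (mul_le_mul_of_nonneg_left ?_ (by linarith))
    exact Real.rpow_le_rpow_of_exponent_le (by exact_mod_cast hq) (by norm_num)
  have hs1 : Summable (termAt k a N) := Summable.of_norm_bounded (hsum.mul_left C) hbd
  refine ⟨hs1, ?_, ?_⟩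
  swap
  · refine (tsum_of_norm_bounded (hsum.hasSum.mul_left C) hbd).trans ?_
    rw [← hZ]
    linarith
  have e : ∑ q ∈ Icc 1 Q, termAt k a N q = ∑ q ∈ range (Q + 1), termAt k a N q := by
    refine sum_subset (fun q hq => mem_range.2 (by rw [mem_Icc] at hq; omega)) fun q hq hq' => ?_
    rw [mem_range] at hq
    rw [mem_Icc] at hq'
    rw [show q = 0 by omega, termAt_zero]
  rw [e, ← hs1.sum_add_tsum_nat_add (Q + 1), sub_add_cancel_left, norm_neg]
  obtain ⟨T, hT⟩ : ∃ T : ℝ, T = ((Q + 1 : ℕ) : ℝ) := ⟨_, rfl⟩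
  rw [← hT]
  have hT1 : 1 ≤ T := hT ▸ by exact_mod_cast Nat.le_add_left 1 Q
  have hsh : Summable fun i : ℕ => T ^ (-(1 / 5) : ℝ) *
      (C * ((i + (Q + 1) : ℕ) : ℝ) ^ (-(6 / 5) : ℝ)) :=
    (((summable_nat_add_iff (f := fun q : ℕ => (q : ℝ) ^ (-(6 / 5) : ℝ)) (Q + 1)).2
      hsum).mul_left C).mul_left _
  refine (tsum_of_norm_bounded hsh.hasSum fun i => ?_).trans ?_
  · refine ((h (i + (Q + 1))).2 N).trans ?_
    have hi : T ≤ ((i + (Q + 1) : ℕ) : ℝ) := hT ▸ Nat.cast_le.2 (Nat.le_add_left _ _)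
    rw [mul_left_comm]
    refine mul_le_mul_of_nonneg_left ?_ (by linarith)
    rw [show (-(7 / 5) : ℝ) = -(1 / 5) + -(6 / 5) by norm_num, Real.rpow_add (by linarith)]
    exact mul_le_mul_of_nonneg_right
      (Real.rpow_le_rpow_of_nonpos (by linarith) hi (by norm_num)) (by positivity)
  · rw [tsum_mul_left, tsum_mul_left, mul_comm (C * Z + 1)]
    refine mul_le_mul_of_nonneg_left ?_ (by positivity)
    have := hsum.sum_add_tsum_nat_add (Q + 1)
    have : 0 ≤ ∑ q ∈ range (Q + 1), (q : ℝ) ^ (-(6 / 5) : ℝ) :=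
      sum_nonneg fun q _ => by positivity
    have := mul_le_mul_of_nonneg_left (show
        ∑' i : ℕ, ((i + (Q + 1) : ℕ) : ℝ) ^ (-(6 / 5) : ℝ) ≤ Z by
      linarith) (zero_le_one.trans hC)
    linarith

theorem sum_coefAt (k : ℕ) {s : ℕ} (a : Fin s → ℕ) (N Q : ℕ) :
    ∑ z ∈ arcCentres Q, coefAt k a N z = (scaleAt k a : ℂ) * ∑ q ∈ Icc 1 Q, termAt k a N q := by
  rw [arcCentres, sum_sigma, mul_sum]
  refine sum_congr rfl fun q _ => ?_
  rw [termAt, mul_sum]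
  refine sum_congr rfl fun r _ => ?_
  simp only [coefAt, centre, localFactor_zero]
  ring_nf

/-- **Orthogonality.** -/
theorem sum_grid_repProduct {k s N M : ℕ} {a : Fin s → ℕ} (hk : 1 ≤ k) (hs : 2 ≤ s)
    (ha : ∀ i, 0 < a i) (haN : ∀ i, a i ≤ N) (hN : 1 ≤ N) (hM : M = s * N) :
    ∑ h ∈ range M, repProduct k a N ((h : ℝ) / M) * eAdd (-((N : ℝ) * ((h : ℝ) / M))) =
      (M : ℂ) * coefReps k a N := by
  have hM0 : 0 < M := hM ▸ Nat.mul_pos (by omega) hN
  have e : ∀ x : ℝ, repProduct k a N x * eAdd (-((N : ℝ) * x)) =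
      ∑ z ∈ Fintype.piFinset (fun i => Icc 1 (rootFloor k (N / a i))),
        eAdd (((((∑ i, a i * z i ^ k : ℕ) : ℤ) - N : ℤ) : ℝ) * x) := fun x => by
    simp only [repProduct, waringSum]
    rw [prod_univ_sum, sum_mul]
    refine sum_congr rfl fun z _ => ?_
    rw [prod_eAdd_eq, ← eAdd_add]
    push_cast
    rw [sub_mul, sum_mul, ← sub_eq_add_neg]
    exact congrArg _ (congrArg (· - _) (sum_congr rfl fun i _ => by ring))
  rw [sum_congr rfl fun h _ => e _]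
  simp only [← mul_div_assoc]
  rw [sum_comm]
  have hbox : coefReps k a N = ((Fintype.piFinset fun i => Icc 1 (rootFloor k (N / a i))).filter
      fun z => ∑ i, a i * z i ^ k = N).card := by
    rw [coefReps]
    congr 1
    ext z
    simp only [mem_filter, Fintype.mem_piFinset, mem_Icc]
    refine ⟨fun h => ⟨fun i => ⟨(h.1 i).1, ?_⟩, h.2⟩, fun h => ⟨fun i => ⟨(h.1 i).1, ?_⟩, h.2⟩⟩
    · have h4 := single_le_sum (f := fun j => a j * z j ^ k) (fun j _ => Nat.zero_le _) (mem_univ i)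
      rw [h.2] at h4
      have h5 : z i ^ k ≤ N / a i := (Nat.le_div_iff_mul_le (ha i)).2 (by rwa [mul_comm])
      obtain ⟨-, -, h6⟩ := rootFloor_spec hk (Nat.div_pos (haN i) (ha i))
      exact Nat.lt_succ_iff.1 (lt_of_pow_lt_pow_left₀ k (Nat.zero_le _) (h5.trans_lt h6))
    · obtain ⟨-, h6, -⟩ := rootFloor_spec hk (Nat.div_pos (haN i) (ha i))
      exact (h.1 i).2.trans ((Nat.le_self_pow (by omega) _).trans (h6.trans (Nat.div_le_self _ _)))
  rw [hbox, card_filter, Nat.cast_sum, mul_sum]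
  refine sum_congr rfl fun z hz => ?_
  have hz' := Fintype.mem_piFinset.1 hz
  have hub : ∑ i, a i * z i ^ k ≤ s * N := by
    refine (sum_le_card_nsmul _ _ N fun i _ => ?_).trans (le_of_eq (by simp))
    exact (Nat.mul_le_mul_left _ ((Nat.pow_le_pow_left (mem_Icc.1 (hz' i)).2 k).trans
      (rootFloor_spec hk (Nat.div_pos (haN i) (ha i))).2.1)).trans (Nat.mul_div_le N (a i))
  generalize ∑ i, a i * z i ^ k = S at hub ⊢
  rw [FA.BirchForms.sum_grid_eq_zero hM0]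
  · by_cases h : S = N
    · simp [h]
    · rw [if_neg (by omega), if_neg h]
      simp
  · have : 2 * N ≤ M := hM ▸ Nat.mul_le_mul_right N hs
    rw [abs_lt]
    constructor <;> omega

/-- One arc. -/
theorem exists_rep_arc_error {k : ℕ} (hk : 2 ≤ k) {n : ℕ} {a : Fin (n + 1) → ℕ}
    (ha : ∀ i, 0 < a i) : ∃ C : ℝ, 0 < C ∧ ∀ N P M : ℕ,
    P = rootFloor k N → 1 ≤ N → (∀ i, a i ≤ N) → M = (n + 1) * N →
      ∀ z ∈ arcCentres ⌊(P : ℝ) ^ (1 / 10 : ℝ)⌋₊,
        ∑ h ∈ arc M ((P : ℝ) ^ (1 / 10 : ℝ) / N) z,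
          ‖repProduct k a N ((h : ℝ) / M) * eAdd (-((N : ℝ) * ((h : ℝ) / M))) -
            coefAt k a N z * mainTerm k (n + 1) N ((h : ℝ) / M + -centre z)‖ ≤
          C * (P : ℝ) ^ ((n : ℝ) + 4 / 10) := by
  obtain ⟨L, hL1, hlog⟩ := exists_one_add_log_le k (n + 1)
  refine ⟨(5 + 4 * ((n + 1 : ℕ) : ℝ) * L) * (((n + 1 : ℕ) : ℝ) * 2 ^ n * 99), by positivity,
    fun N P M hP hN haN hM z hz => ?_⟩
  obtain ⟨hP1, hPN, hNP⟩ := rootFloor_spec (show 1 ≤ k by omega) hN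
  rw [← hP] at hP1 hPN hNP
  have hPr : (1 : ℝ) ≤ P := by exact_mod_cast hP1
  have hN0 : (0 : ℝ) < N := Nat.cast_pos.2 hN
  have : NeZero M := ⟨by rw [hM]; positivity⟩
  obtain ⟨R, hR⟩ : ∃ R, R = (P : ℝ) ^ (1 / 10 : ℝ) := ⟨_, rfl⟩
  rw [← hR] at hz ⊢
  have hR1 : 1 ≤ R := hR ▸ Real.one_le_rpow hPr (by norm_num)
  have hk0 : (0 : ℝ) < k := by exact_mod_cast (show 0 < k by omega)
  have hk1 : 1 / (k : ℝ) ≤ 1 := by
    rw [div_le_one hk0]; exact_mod_cast (show 1 ≤ k by omega)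
  have hNc : (N : ℝ) ^ (1 / (k : ℝ)) ≤ 2 * P := by
    refine (Real.rpow_le_rpow hN0.le (?_ : (N : ℝ) ≤ (2 * (P : ℝ)) ^ (k : ℝ))
      (by positivity)).trans (le_of_eq ?_)
    · rw [Real.rpow_natCast]
      exact_mod_cast hNP.le.trans (Nat.pow_le_pow_left (show P + 1 ≤ 2 * P by omega) k)
    · rw [← Real.rpow_mul (by positivity), mul_one_div_cancel hk0.ne', Real.rpow_one]
  have hone : ∀ h ∈ arc M (R / N) z,
      ‖repProduct k a N ((h : ℝ) / M) * eAdd (-((N : ℝ) * ((h : ℝ) / M))) -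
        coefAt k a N z * mainTerm k (n + 1) N ((h : ℝ) / M + -centre z)‖ ≤
          ((n + 1 : ℕ) : ℝ) * (2 * (P : ℝ)) ^ n * (99 * R ^ 2) := by
    intro h hh
    obtain ⟨q, r⟩ := z
    obtain ⟨⟨hq, hqR⟩, -, -⟩ := mem_arcCentres.1 hz
    simp only at hq hqR
    have hqR' : (q : ℝ) ≤ R := (Nat.cast_le.2 hqR).trans (Nat.floor_le (by linarith))
    rw [arc, mem_filter, nearDist] at hh
    obtain ⟨j, hj⟩ : ∃ j, j = round ((h : ℝ) / M - centre ⟨q, r⟩) := ⟨_, rfl⟩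
    obtain ⟨β, hβ⟩ : ∃ β, β = (h : ℝ) / M - centre ⟨q, r⟩ - j := ⟨_, rfl⟩
    rw [← hj, ← hβ] at hh
    have h1 : |β| * N ≤ R := by
      rw [← le_div_iff₀ hN0]
      exact hh.2
    have h2 : 1 + 2 * π * |β| * N ≤ 9 * R := by
      have := mul_le_mul_of_nonneg_left h1 (show (0 : ℝ) ≤ 2 * π by positivity)
      have := mul_le_mul_of_nonneg_right Real.pi_le_four (show (0 : ℝ) ≤ R by linarith)
      linarith
    have happ : ∀ i, ‖waringSum k (rootFloor k (N / a i)) ((a i : ℝ) * ((h : ℝ) / M)) -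
        densityFactor k q ((a i : ℤ) * r) * ((((a i : ℝ) ^ (-(1 / (k : ℝ))) : ℝ) : ℂ) *
          weightSum (1 / (k : ℝ)) N β)‖ ≤ 99 * R ^ 2 := fun i => by
      have hα : waringSum k (rootFloor k (N / a i)) ((a i : ℝ) * ((h : ℝ) / M)) =
          waringSum k (rootFloor k (N / a i)) ((a i : ℝ) * ((r : ℝ) / q + β)) := by
        rw [← FA.BirchForms.waringSum_add_intCast k _ ((a i : ℝ) * ((r : ℝ) / q + β)) (a i * j),
          hβ, centre]
        congr 1
        push_cast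
        ring
      rw [hα]
      refine (norm_waringSum_mul_sub_le (by omega) (ha i) (haN i) (by omega) r β).trans ?_
      calc 11 * (q : ℝ) * (1 + 2 * π * |β| * N) ≤ 11 * R * (9 * R) :=
            mul_le_mul (by linarith) h2 (by positivity) (by positivity)
        _ = _ := by ring
    have e : eAdd (-((N : ℝ) * centre ⟨q, r⟩)) * eAdd (-(N * ((h : ℝ) / M - centre ⟨q, r⟩))) =
        eAdd (-((N : ℝ) * ((h : ℝ) / M))) := by
      rw [← eAdd_add]
      ring_nf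
    have e' : coefAt k a N ⟨q, r⟩ * mainTerm k (n + 1) N ((h : ℝ) / M + -centre ⟨q, r⟩) =
        (∏ i, densityFactor k q ((a i : ℤ) * r) * ((((a i : ℝ) ^ (-(1 / (k : ℝ))) : ℝ) : ℂ) *
          weightSum (1 / (k : ℝ)) N β)) * eAdd (-((N : ℝ) * ((h : ℝ) / M))) := by
      rw [prod_mul_distrib, prod_mul_distrib, prod_const, card_univ, Fintype.card_fin, coefAt,
        scaleAt, Complex.ofReal_prod, factor, mainTerm, ← sub_eq_add_neg,
        ← weightSum_sub_intCast _ N _ j, ← hβ, ← e]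
      ring
    rw [e', ← sub_mul, norm_mul, norm_eAdd, mul_one, repProduct]
    refine norm_prod_sub_prod_le n _ _ (fun i => (norm_waringSum_le _ _ _).trans ?_) (fun i => ?_)
      happ
    · have : rootFloor k (N / a i) ≤ P := hP ▸ rootFloor_div_le (by omega) (ha i) (haN i)
      have : (rootFloor k (N / a i) : ℝ) ≤ P := Nat.cast_le.2 this
      linarith
    · rw [norm_mul, norm_mul]
      refine (mul_le_of_le_one_left (by positivity) (norm_densityFactor_le_one _ _ _)).trans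
        ((mul_le_of_le_one_left (norm_nonneg _) ?_).trans
          ((norm_weightSum_le (by positivity) hk1 N _).trans hNc))
      rw [Complex.norm_real, Real.norm_of_nonneg (by positivity)]
      exact Real.rpow_le_one_of_one_le_of_nonpos (by exact_mod_cast ha i)
        (neg_nonpos.2 (by positivity))
  refine (sum_le_card_nsmul _ _ _ hone).trans ?_
  rw [nsmul_eq_mul]
  have hcard : ((arc M (R / N) z).card : ℝ) ≤ (5 + 4 * ((n + 1 : ℕ) : ℝ) * L) * R ^ 2 := by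
    refine (card_arc_le (div_pos (by linarith) hN0) z).trans ?_
    have hlogM := hlog P M hP1 (by exact_mod_cast (NeZero.pos M : 0 < M)) (by
      rw [hM]
      push_cast
      refine mul_le_mul_of_nonneg_left ?_ (by positivity)
      exact_mod_cast hNP.le.trans (Nat.pow_le_pow_left (show P + 1 ≤ 2 * P by omega) k))
    rw [← hR] at hlogM
    have hMd : 4 * (M : ℝ) * (R / N) = 4 * ((n + 1 : ℕ) : ℝ) * R := by
      rw [hM]; push_cast; field_simp
    rw [hMd]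
    have := mul_le_mul_of_nonneg_left hlogM (show 0 ≤ 4 * ((n + 1 : ℕ) : ℝ) * R by positivity)
    have h5 : (5 : ℝ) * 1 ≤ 5 * R ^ 2 := mul_le_mul_of_nonneg_left (one_le_pow₀ hR1) (by norm_num)
    linarith
  refine (mul_le_mul_of_nonneg_right hcard (by positivity)).trans (le_of_eq ?_)
  rw [Real.rpow_add (by linarith), Real.rpow_natCast, show (4 / 10 : ℝ) = (1 / 10 : ℝ) * (4 : ℕ) by
    norm_num, Real.rpow_mul (by linarith), ← hR, Real.rpow_natCast]
  ring

end FA.DiagonalRep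

end
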