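import Fermat.Agent.DiagonalHua.Minor

/-!
# The minor arcs for `∑ a i x i ^ k = N`

If `α` is off the major arcs of `N` then `a α` has an approximation of denominator above
`P ^ (1/10) / a`, so Weyl's bound holds for every fixed coefficient; the other `2 ^ k` sums cost
`P ^ (2 ^ k - k + ε)` by Hua's inequality.
-/

set_option autoImplicit false

noncomputable section

namespace FA.DiagonalRep

open Finset FA.WaringAsymptotic
open FA.BirchForms (rootFloor_div_le sum_norm_waringSum_mul_pow prod_le_sum_pow)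
open FA.ThreePrimes hiding singularSeries singularTerm
open scoped Real

/-- **Weyl's bound with a coefficient.** -/
theorem exists_minor_sup_mul {k : ℕ} (hk : 2 ≤ k) {a : ℕ} (ha : 0 < a) : ∃ C : ℝ, 0 < C ∧
    ∀ (N P : ℕ) (α : ℝ), P = rootFloor k N → a ≤ N →
    (∀ z ∈ arcCentres ⌊(P : ℝ) ^ (1 / 10 : ℝ)⌋₊,
        (P : ℝ) ^ (1 / 10 : ℝ) / N < nearDist (α - centre z)) →
      ‖waringSum k (rootFloor k (N / a)) ((a : ℝ) * α)‖ ≤
        C * (P : ℝ) ^ (1 - weylSaving k) := by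
  obtain ⟨K, hK⟩ : ∃ K, K = 2 ^ (k - 1) := ⟨_, rfl⟩
  obtain ⟨W, hW, hweyl⟩ := exists_weyl hk (show (0 : ℝ) < 1 / 40 by norm_num)
  rw [← hK] at hweyl
  obtain ⟨B, hB⟩ : ∃ B : ℝ, B = W * (3 * a + a * 2 ^ k) * (1 + k * 80) := ⟨_, rfl⟩
  refine ⟨(1 + B), by rw [hB]; positivity, fun N P α hP haN hout => ?_⟩
  have hN1 : 1 ≤ N := by omega
  obtain ⟨hP', hPN, hNP⟩ := rootFloor_spec (show 1 ≤ k by omega) hN1
  rw [← hP] at hP' hPN hNP
  obtain ⟨T, hT⟩ : ∃ T, T = rootFloor k (N / a) := ⟨_, rfl⟩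
  obtain ⟨hT1, -, hNT⟩ := rootFloor_spec (show 1 ≤ k by omega) (Nat.div_pos haN ha)
  have hTP : T ≤ P := hT ▸ hP ▸ rootFloor_div_le (by omega) ha haN
  rw [← hT] at hT1 hNT ⊢
  have hP1 : (1 : ℝ) ≤ P := by exact_mod_cast hP'
  have hT1' : (1 : ℝ) ≤ T := by exact_mod_cast hT1
  have hTP' : (T : ℝ) ≤ P := Nat.cast_le.2 hTP
  have ha1 : (1 : ℝ) ≤ a := by exact_mod_cast ha
  have hNT2 : N ≤ a * (2 * T) ^ k := by
    have h1 := (Nat.div_lt_iff_lt_mul ha).1 hNT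
    rw [mul_comm] at h1
    exact h1.le.trans (Nat.mul_le_mul_left a (Nat.pow_le_pow_left (by omega) k))
  have hPT : P ≤ 2 * a * T := by
    refine (Nat.pow_le_pow_iff_left (show k ≠ 0 by omega)).1 (hPN.trans (hNT2.trans ?_))
    rw [show 2 * a * T = a * (2 * T) by ring, mul_pow a]
    exact Nat.mul_le_mul_right _ (Nat.le_self_pow (by omega) a)
  have hN' : (0 : ℝ) < N := Nat.cast_pos.2 hN1
  have hN2 : (N : ℝ) ≤ 2 ^ k * (P : ℝ) ^ k := by
    rw [← mul_pow]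
    exact_mod_cast (hNP.le.trans (Nat.pow_le_pow_left (show P + 1 ≤ 2 * P by omega) k))
  obtain ⟨R, hR⟩ : ∃ R, R = (P : ℝ) ^ (1 / 10 : ℝ) := ⟨_, rfl⟩
  rw [← hR] at hout
  have hR1 : 1 ≤ R := hR ▸ Real.one_le_rpow hP1 (by norm_num)
  have hRP : R ≤ P := hR ▸ Real.rpow_le_self_of_one_le hP1 (by norm_num)
  have hRN : R ≤ N := by
    refine hRP.trans ?_
    exact_mod_cast (Nat.le_self_pow (by omega) P).trans hPN
  obtain ⟨n, hn⟩ : ∃ n, n = ⌊(N : ℝ) / R⌋₊ := ⟨_, rfl⟩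
  have hn0 : 0 < n := hn ▸ Nat.floor_pos.2 ((one_le_div (by linarith)).2 hRN)
  obtain ⟨ρ, hρ, hρn⟩ := Real.exists_rat_abs_sub_le_and_den_le ((a : ℝ) * α) hn0
  obtain ⟨q, hq⟩ : ∃ q, q = ρ.den := ⟨_, rfl⟩
  have : NeZero q := ⟨hq ▸ ρ.den_ne_zero⟩
  have hq0 : (0 : ℝ) < q := Nat.cast_pos.2 (NeZero.pos q)
  have hρv : (ρ : ℝ) = (ρ.num : ℝ) / q := by rw [hq, Rat.cast_def]
  rw [hρv, ← hq] at hρ
  have hunit : IsUnit (ρ.num : ZMod q) := by
    rw [ZMod.coe_int_isUnit_iff_isCoprime, isCoprime_comm, Int.isCoprime_iff_nat_coprime, hq]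
    simpa using ρ.reduced
  have hn1 : (N : ℝ) / R ≤ (n : ℝ) + 1 := hn ▸ (Nat.lt_floor_add_one _).le
  have hqR : R < a * q := by
    by_contra hle
    rw [not_lt] at hle
    obtain ⟨σ, hσ⟩ : ∃ σ : ℚ, σ = ρ / a := ⟨_, rfl⟩
    obtain ⟨d, hd⟩ : ∃ d, d = σ.den := ⟨_, rfl⟩
    have : NeZero d := ⟨hd ▸ σ.den_ne_zero⟩
    have hdle : d ≤ a * q := by
      refine Nat.le_of_dvd (Nat.mul_pos ha (NeZero.pos q)) ?_
      have e : σ = Rat.divInt ρ.num ((a * q : ℕ) : ℤ) := by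
        rw [hσ, hq, Rat.divInt_eq_div]
        push_cast
        rw [mul_comm (a : ℚ) _, ← div_div, Rat.num_div_den]
      rw [hd, e]
      exact_mod_cast Rat.den_dvd ρ.num ((a * q : ℕ) : ℤ)
    obtain ⟨r, hr⟩ : ∃ r, r = (σ.num : ZMod d).val := ⟨_, rfl⟩
    have hmem : (⟨d, r⟩ : Σ _ : ℕ, ℕ) ∈ arcCentres ⌊R⌋₊ := by
      refine mem_arcCentres.2 ⟨⟨NeZero.pos d, Nat.le_floor ((Nat.cast_le.2 hdle).trans ?_)⟩,
        hr ▸ ZMod.val_lt _, ?_⟩
      · push_cast
        exact hle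
      have h1 : IsUnit ((r : ℕ) : ZMod d) := by
        rw [hr, ZMod.natCast_zmod_val, ZMod.coe_int_isUnit_iff_isCoprime, isCoprime_comm,
          Int.isCoprime_iff_nat_coprime, hd]
        simpa using σ.reduced
      exact ((ZMod.isUnit_iff_coprime r d).1 h1).symm
    obtain ⟨m, hm⟩ : (d : ℤ) ∣ σ.num - r := by
      rw [← ZMod.intCast_zmod_eq_zero_iff_dvd, hr]
      push_cast
      rw [ZMod.natCast_zmod_val, sub_self]
    have h2 : nearDist (α - centre ⟨d, r⟩) ≤ R / N := by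
      refine (nearDist_le_abs_sub _ m).trans ?_
      have e : α - centre ⟨d, r⟩ - (m : ℝ) = ((a : ℝ) * α - (ρ.num : ℝ) / q) / a := by
        have h3 : (σ.num : ℝ) - r = d * m := by exact_mod_cast hm
        have h4 : (σ : ℝ) = (σ.num : ℝ) / d := by rw [hd, Rat.cast_def]
        have h5 : (σ : ℝ) = (ρ.num : ℝ) / q / a := by rw [hσ]; push_cast; rw [hρv]
        have hd0 : (d : ℝ) ≠ 0 := Nat.cast_ne_zero.2 (NeZero.ne d)
        rw [sub_div, mul_div_cancel_left₀ _ (by linarith : (a : ℝ) ≠ 0), ← h5, h4]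
        simp only [centre]
        field_simp
        linarith
      rw [e, abs_div, Nat.abs_cast, div_le_iff₀ (by linarith)]
      refine hρ.trans ?_
      rw [div_mul_eq_mul_div, div_le_div_iff₀ (by positivity) hN', one_mul]
      have h4 : (N : ℝ) ≤ R * ((n : ℝ) + 1) := by
        rw [div_le_iff₀ (by linarith)] at hn1
        linarith
      refine h4.trans ((mul_le_mul_of_nonneg_left ?_ (show (0 : ℝ) ≤ R by linarith)).trans
        (le_of_eq (mul_assoc _ _ _).symm))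
      refine (le_mul_of_one_le_right (show (0 : ℝ) ≤ (n : ℝ) + 1 by positivity)
        (show (1 : ℝ) ≤ q by exact_mod_cast NeZero.pos q)).trans ?_
      exact le_mul_of_one_le_left (by positivity) ha1
    exact absurd (hout _ hmem) (not_lt.2 h2)
  have hqn : (q : ℝ) ≤ n := Nat.cast_le.2 (hq ▸ hρn)
  have hqN : (q : ℝ) * R ≤ N := by
    have := hqn.trans (hn ▸ Nat.floor_le (by positivity))
    rwa [le_div_iff₀ (by linarith)] at this
  have hα : |(a : ℝ) * α - (ρ.num : ℝ) / q| ≤ 1 / (q : ℝ) ^ 2 := by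
    refine hρ.trans (one_div_le_one_div_of_le (by positivity) ?_)
    rw [sq]
    exact mul_le_mul_of_nonneg_right (by linarith) hq0.le
  have h := hweyl T q ρ.num _ hT1 hunit hα
  have hfac : 1 / (q : ℝ) + 1 / T + q / (T : ℝ) ^ k ≤ (3 * a + a * 2 ^ k) / R := by
    rw [show ((3 : ℝ) * a + a * 2 ^ k) / R = a / R + 2 * a / R + a * 2 ^ k / R by ring]
    refine add_le_add (add_le_add ?_ ?_) ?_
    · rw [div_le_div_iff₀ hq0 (by linarith), one_mul]
      exact hqR.le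
    · rw [div_le_div_iff₀ (by linarith) (by linarith), one_mul]
      exact hRP.trans (by exact_mod_cast hPT)
    · rw [div_le_div_iff₀ (by positivity) (by linarith)]
      refine hqN.trans ?_
      rw [mul_assoc, ← mul_pow]
      exact_mod_cast hNT2
  have hlog : 1 + Real.log q ≤ (1 + k * 80) * (P : ℝ) ^ (1 / 40 : ℝ) := by
    have h1 : Real.log q ≤ k * Real.log (2 * (P : ℝ)) := by
      rw [← Real.log_pow]
      refine Real.log_le_log hq0 ?_
      rw [mul_pow]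
      exact (le_mul_of_one_le_right hq0.le hR1).trans (hqN.trans hN2)
    have h2 := Real.log_le_rpow_div (show (0 : ℝ) ≤ 2 * P by positivity)
      (show (0 : ℝ) < 1 / 40 by norm_num)
    have h3 : (2 * (P : ℝ)) ^ (1 / 40 : ℝ) ≤ 2 * (P : ℝ) ^ (1 / 40 : ℝ) := by
      rw [Real.mul_rpow two_pos.le (by linarith)]
      exact mul_le_mul_of_nonneg_right (Real.rpow_le_self_of_one_le one_le_two (by norm_num))
        (by positivity)
    have h4 : (1 : ℝ) ≤ (P : ℝ) ^ (1 / 40 : ℝ) := Real.one_le_rpow hP1 (by norm_num)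
    have h5 : (k : ℝ) * Real.log (2 * (P : ℝ)) ≤ k * (40 * (2 * (P : ℝ) ^ (1 / 40 : ℝ))) := by
      refine mul_le_mul_of_nonneg_left (h2.trans ?_) (Nat.cast_nonneg k)
      rw [div_le_iff₀ (by norm_num)]
      linarith
    linarith
  have hexp : ((K : ℝ) + 1 / 40) - 1 / 10 + 1 / 40 = (1 - weylSaving k) * K := by
    have e : weylSaving k * K = 1 / 20 := by
      rw [weylSaving, hK]; push_cast; field_simp
    linarith
  have hTpow : (T : ℝ) ^ ((K : ℝ) + 1 / 40) ≤ (P : ℝ) ^ ((K : ℝ) + 1 / 40) :=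
    Real.rpow_le_rpow (by linarith) hTP' (by positivity)
  have hKr : ‖waringSum k T ((a : ℝ) * α)‖ ^ K ≤ B * ((P : ℝ) ^ (1 - weylSaving k)) ^ K := by
    refine h.trans ((mul_le_mul (mul_le_mul (mul_le_mul_of_nonneg_left hTpow hW.le) hfac
      (by positivity) (by positivity)) hlog
      (by linarith [Real.log_natCast_nonneg q]) (by positivity)).trans (le_of_eq ?_))
    rw [hR, hB, ← Real.rpow_natCast ((P : ℝ) ^ _) K, ← Real.rpow_mul (by linarith), ← hexp,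
      Real.rpow_add (by linarith : (0 : ℝ) < P) ((K : ℝ) + 1 / 40 - 1 / 10) (1 / 40),
      Real.rpow_sub (by linarith : (0 : ℝ) < P) ((K : ℝ) + 1 / 40) (1 / 10)]
    ring
  have hK1 : 1 ≤ K := hK ▸ Nat.one_le_two_pow
  have hB0 : 0 ≤ B := by rw [hB]; positivity
  refine le_of_pow_le_pow_left₀ (by omega : K ≠ 0) (by positivity) (hKr.trans ?_)
  rw [mul_pow (1 + B)]
  exact mul_le_mul_of_nonneg_right
    ((le_self_pow₀ (show 1 ≤ 1 + B by linarith) (by omega : K ≠ 0)).trans' (by linarith))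
    (by positivity)

/-- The product of the sums. -/
def repProduct (k : ℕ) {s : ℕ} (a : Fin s → ℕ) (N : ℕ) (x : ℝ) : ℂ :=
  ∏ i, waringSum k (rootFloor k (N / a i)) ((a i : ℝ) * x)

/-- **The minor arcs.** -/
theorem exists_minor_product {k n : ℕ} (hk : 2 ≤ k) (hn : 2 ^ k ≤ n)
    {a : Fin (n + 1) → ℕ} (ha : ∀ i, 0 < a i) : ∃ C : ℝ, 0 < C ∧
    ∀ N P M : ℕ, 1 ≤ N → P = rootFloor k N → M = (n + 1) * N → (∀ i, a i ≤ N) →
      ∑ h ∈ minorSet M P N, ‖repProduct k a N ((h : ℝ) / M)‖ ≤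
        C * M * (P : ℝ) ^ (((n + 1 : ℕ) : ℝ) - k - weylSaving k / 2) := by
  obtain ⟨t, ht⟩ : ∃ t, t = 2 ^ (k - 1) := ⟨_, rfl⟩
  have htk : 2 * t = 2 ^ k := by rw [ht, ← pow_succ', show k - 1 + 1 = k by omega]
  obtain ⟨e, he⟩ : ∃ e, n = e + 2 * t := ⟨n - 2 * t, by omega⟩
  obtain ⟨C₁, hC₁, hsup⟩ := exists_minor_sup_mul hk (ha 0)
  obtain ⟨C₂, hC₂, hmom⟩ := WaringHua.exists_moment (k := k) (by omega)
    (half_pos (weylSaving_pos k))
  rw [← ht] at hmom
  refine ⟨C₁ * (n * C₂) + 1, by positivity, fun N P M hN hP hM haN => ?_⟩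
  obtain ⟨hP1, hPN, hNP⟩ := rootFloor_spec (show 1 ≤ k by omega) hN
  rw [← hP] at hP1 hPN hNP
  have hPr : (1 : ℝ) ≤ P := by exact_mod_cast hP1
  obtain ⟨E, hE⟩ : ∃ E, E = (univ : Finset (Fin (n + 1))).erase 0 := ⟨_, rfl⟩
  have hEc : #E = n := by simp [hE]
  have hkk : k * 2 ≤ 2 * t := by
    have := Nat.lt_two_pow_self (n := k - 1)
    omega
  obtain ⟨Y, hY⟩ : ∃ Y : ℝ, Y = 2 * (t : ℝ) - k + weylSaving k / 2 := ⟨_, rfl⟩
  have hY0 : 0 ≤ Y := by
    have h1 : (k : ℝ) * 2 ≤ 2 * (t : ℝ) := by exact_mod_cast hkk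
    rw [hY]
    linarith [weylSaving_pos k]
  have hmo : ∀ i, ∑ h ∈ range M, ‖waringSum k (rootFloor k (N / a i))
      ((a i : ℝ) * ((h : ℝ) / M))‖ ^ (2 * t) ≤ M * (C₂ * (P : ℝ) ^ Y) := fun i => by
    obtain ⟨hQ1, hQN, -⟩ := rootFloor_spec (show 1 ≤ k by omega) (Nat.div_pos (haN i) (ha i))
    have hlt : ((a i : ℤ)).natAbs * (t * rootFloor k (N / a i) ^ k) < M := by
      rw [Int.natAbs_natCast, hM, mul_left_comm]
      refine lt_of_le_of_lt (Nat.mul_le_mul_left t ((Nat.mul_le_mul_left _ hQN).trans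
        (Nat.mul_div_le N _))) ?_
      exact Nat.mul_lt_mul_of_pos_right (by omega) hN
    have h := sum_norm_waringSum_mul_pow (k := k) (a i : ℤ)
      (Int.natCast_ne_zero.2 (ha i).ne') hlt
    simp only [Int.cast_natCast] at h
    rw [h]
    refine mul_le_mul_of_nonneg_left ((hmom _ hQ1).trans (mul_le_mul_of_nonneg_left ?_ hC₂.le))
      (Nat.cast_nonneg M)
    rw [← hY]
    exact Real.rpow_le_rpow (Nat.cast_nonneg _)
      (Nat.cast_le.2 (hP ▸ rootFloor_div_le (by omega) (ha i) (haN i))) hY0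
  refine (sum_le_sum (g := fun h : ℕ => C₁ * (P : ℝ) ^ (1 - weylSaving k) * ((P : ℝ) ^ e *
    ∑ i ∈ E, ‖waringSum k (rootFloor k (N / a i)) ((a i : ℝ) * ((h : ℝ) / M))‖ ^ (2 * t)))
    fun h hh => ?_).trans ?_
  · rw [repProduct, norm_prod, ← mul_prod_erase _ _ (mem_univ 0), ← hE]
    refine mul_le_mul ?_ ?_ (prod_nonneg fun i _ => norm_nonneg _) (by positivity)
    · rw [minorSet, Finset.mem_sdiff, mem_biUnion] at hh
      refine hsup N P _ hP (haN 0) fun z hz => ?_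
      by_contra hle
      exact hh.2 ⟨z, hz, mem_filter.2 ⟨hh.1, not_lt.1 hle⟩⟩
    · refine (prod_le_sum_pow E (card_pos.1 (by omega))
        (fun i => ‖waringSum k (rootFloor k (N / a i)) ((a i : ℝ) * ((h : ℝ) / M))‖)
        fun i _ => norm_nonneg _).trans ?_
      rw [hEc, mul_sum]
      refine sum_le_sum fun i _ => ?_
      refine le_trans (le_of_eq (by rw [← pow_add, ← he] :
        _ = ‖waringSum k (rootFloor k (N / a i)) ((a i : ℝ) * ((h : ℝ) / M))‖ ^ e *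
          ‖waringSum k (rootFloor k (N / a i)) ((a i : ℝ) * ((h : ℝ) / M))‖ ^ (2 * t))) ?_
      refine mul_le_mul_of_nonneg_right (pow_le_pow_left₀ (norm_nonneg _)
        ((norm_waringSum_le _ _ _).trans (Nat.cast_le.2 ?_)) e) (by positivity)
      exact hP ▸ rootFloor_div_le (by omega) (ha i) (haN i)
  rw [← mul_sum, ← mul_sum, sum_comm]
  refine (mul_le_mul_of_nonneg_left (mul_le_mul_of_nonneg_left (sum_le_sum fun i _ =>
    (sum_le_sum_of_subset_of_nonneg (t := range M) (show minorSet M P N ⊆ range M from sdiff_subset)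
      fun h _ _ => by positivity).trans (hmo i)) (by positivity)) (by positivity)).trans ?_
  rw [sum_const, hEc, nsmul_eq_mul]
  calc C₁ * (P : ℝ) ^ (1 - weylSaving k) * ((P : ℝ) ^ e * ((n : ℝ) * (M * (C₂ * (P : ℝ) ^ Y))))
      = C₁ * (n * C₂) * M * (P : ℝ) ^ (1 - weylSaving k + (e : ℝ) + Y) := by
        rw [Real.rpow_add (by linarith : (0 : ℝ) < P), Real.rpow_add (by linarith : (0 : ℝ) < P),
          Real.rpow_natCast]
        ring
    _ ≤ (C₁ * (n * C₂) + 1) * M * (P : ℝ) ^ (1 - weylSaving k + (e : ℝ) + Y) := by gcongr; linarith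
    _ = _ := by
        rw [hY, he]
        push_cast
        ring_nf

end FA.DiagonalRep

end
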