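import Fermat.Agent.DiagonalRep.Circle
import Fermat.Agent.WaringAsymptotic.Positivity
import Fermat.Agent.BirchForms.Series

/-!
# The singular series of `∑ a i x i ^ k = N`

A pattern at `p` is a solution modulo a power of `p` to which Hensel's lemma applies. Primitive
solutions modulo a power `p ^ (∑ a i + 2 v_p k + 1)` give one; at primes dividing neither `k` nor
any `a i` there is one by the theorem of Cauchy and Davenport. With a pattern at every prime the
singular series is bounded below independently of `N`.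
-/

set_option autoImplicit false

noncomputable section

namespace FA.DiagonalRep

open Finset FA.WaringAsymptotic Filter Topology
open FA.BirchForms (factor factor_mul isUnit_primePow exists_val_unit)
open FA.ThreePrimes hiding singularSeries singularTerm
open scoped Pointwise

theorem termAt_mul {k s m n : ℕ} (a : Fin s → ℕ) (N : ℕ) (hk : 1 ≤ k) (h : m.Coprime n) :
    termAt k a N (m * n) = termAt k a N m * termAt k a N n := by
  rcases Nat.eq_zero_or_pos m with rfl | hm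
  · simp [termAt_zero]
  rcases Nat.eq_zero_or_pos n with rfl | hn
  · simp [termAt_zero]
  simp only [termAt]
  rw [sum_mul_sum, sum_unitResidues_mul h]
  refine sum_congr rfl fun x _ => sum_congr rfl fun y _ => ?_
  rw [factor_mul _ hk h hm hn, localFactor_mul hk h hm hn]
  ring

/-- Solutions of `∑ a i x i ^ k ≡ N` modulo `q`. -/
def repCongr (k : ℕ) {s : ℕ} (a : Fin s → ℕ) (N q : ℕ) : ℕ :=
  ((Fintype.piFinset fun _ : Fin s => range q).filter
    fun z => (q : ℤ) ∣ ((∑ i, a i * z i ^ k : ℕ) : ℤ) - N).card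

/-- The sum over all residues. -/
def repResidueSum (k : ℕ) {s : ℕ} (a : Fin s → ℕ) (N q : ℕ) : ℂ :=
  ∑ r ∈ range q, factor k q (fun i => (a i : ℤ)) r * localFactor k 0 N q r

theorem repResidueSum_eq {k s N q : ℕ} (a : Fin s → ℕ) (hq : 0 < q) :
    repResidueSum k a N q = (q : ℂ) * (repCongr k a N q : ℂ) / (q : ℂ) ^ s := by
  have e : ∀ r ∈ range q, factor k q (fun i => (a i : ℤ)) r * localFactor k 0 N q r =
      (∑ z ∈ Fintype.piFinset (fun _ : Fin s => range q),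
        eAdd (((((∑ i, a i * z i ^ k : ℕ) : ℤ) - N : ℤ) : ℝ) * r / q)) / (q : ℂ) ^ s :=
    fun r _ => by
    simp only [factor, densityFactor, localFactor_zero]
    rw [prod_div_distrib, prod_const, card_univ, Fintype.card_fin, div_mul_eq_mul_div]
    congr 1
    simp only [completeSum]
    rw [prod_univ_sum, sum_mul]
    refine sum_congr rfl fun z _ => ?_
    rw [prod_eAdd_eq, ← eAdd_add]
    push_cast
    rw [sub_mul, sub_div, sum_mul, sum_div, ← sub_eq_add_neg]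
    congr 1
    congr 1
    exact sum_congr rfl fun i _ => by ring
  rw [repResidueSum, sum_congr rfl e, ← sum_div]
  congr 1
  rw [sum_comm, repCongr, card_filter, Nat.cast_sum, mul_sum]
  refine sum_congr rfl fun z _ => ?_
  rw [sum_eAdd_grid hq]
  split_ifs <;> simp

theorem repResidueSum_primePow {k s N p : ℕ} (a : Fin s → ℕ) (hp : p.Prime) : ∀ L : ℕ,
    repResidueSum k a N (p ^ L) = ∑ l ∈ range (L + 1), termAt k a N (p ^ l)
  | 0 => by
    simp [repResidueSum, factor, densityFactor, completeSum, termAt_one, localFactor_zero]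
  | L + 1 => by
    rw [sum_range_succ _ (L + 1), ← repResidueSum_primePow a hp L, repResidueSum,
      ← sum_filter_add_sum_filter_not (range (p ^ (L + 1))) (fun r => p ∣ r)]
    congr 1
    · have hp0 : 0 < p := hp.pos
      refine sum_nbij' (fun r => r / p) (fun b => p * b) (fun r hr => ?_) (fun b hb => ?_)
        (fun r hr => Nat.mul_div_cancel' (mem_filter.1 hr).2)
        (fun b _ => Nat.mul_div_cancel_left b hp0) fun r hr => ?_
      · rw [mem_range, Nat.div_lt_iff_lt_mul hp0, ← pow_succ]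
        exact mem_range.1 (mem_filter.1 hr).1
      · rw [mem_filter, mem_range, pow_succ']
        exact ⟨Nat.mul_lt_mul_of_pos_left (mem_range.1 hb) hp0, dvd_mul_right p b⟩
      · obtain ⟨b, rfl⟩ := (mem_filter.1 hr).2
        rw [Nat.mul_div_cancel_left b hp0]
        simp only [factor, densityFactor, localFactor_zero]
        have hpc : (p : ℂ) ≠ 0 := Nat.cast_ne_zero.2 hp0.ne'
        have hpr : (p : ℝ) ≠ 0 := Nat.cast_ne_zero.2 hp0.ne'
        congr 1
        · refine prod_congr rfl fun i _ => ?_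
          rw [pow_succ' p L, show (a i : ℤ) * ((p * b : ℕ) : ℤ) = (p : ℤ) * ((a i : ℤ) * b) by
            push_cast; ring, completeSum_mul_left hp0 (pow_pos hp0 L)]
          push_cast
          field_simp
        · rw [pow_succ' p L]
          push_cast
          congr 1
          field_simp
    · rw [termAt, unitResidues]
      refine sum_congr (filter_congr fun r _ => ?_) fun r _ => rfl
      rw [Nat.coprime_pow_left_iff L.succ_pos, ← hp.coprime_iff_not_dvd]

/-- A solution modulo `p ^ (v + 2 v_p k + 1)` with a coordinate prime to `p` whose coefficient has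
valuation `v`. -/
def RepPattern (k : ℕ) {s : ℕ} (a : Fin s → ℕ) (N p : ℕ) : Prop :=
  ∃ (y : Fin s → ℕ) (i₀ : Fin s) (v : ℕ) (u : ℤ), (a i₀ : ℤ) = (p : ℤ) ^ v * u ∧
    ¬(p : ℤ) ∣ u ∧ v ≤ ∑ i, a i ∧ ¬p ∣ y i₀ ∧
      (p : ℤ) ^ (v + (2 * padicValNat p k + 1)) ∣ ((∑ i, a i * y i ^ k : ℕ) : ℤ) - N

/-- **A primitive solution modulo a high power of `p` gives a pattern.** -/
theorem RepPattern.of_primitive {k s N p : ℕ} (hp : p.Prime) {a : Fin s → ℕ} (ha : ∀ i, 0 < a i)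
    {y : Fin s → ℕ} {i₀ : Fin s} (hy : ¬p ∣ y i₀)
    (h : (p : ℤ) ^ (∑ i, a i + (2 * padicValNat p k + 1)) ∣
      ((∑ i, a i * y i ^ k : ℕ) : ℤ) - N) : RepPattern k a N p := by
  obtain ⟨v, u, hvu, hu, hv⟩ := exists_val_unit hp (Int.natCast_ne_zero.2 (ha i₀).ne')
  rw [Int.natAbs_natCast] at hv
  have hle : v ≤ ∑ i, a i := hv.trans (single_le_sum (fun i _ => Nat.zero_le _) (mem_univ i₀))
  exact ⟨y, i₀, v, u, hvu, hu, hle, hy, (pow_dvd_pow _ (by omega)).trans h⟩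

/-- **Cauchy and Davenport**: away from `k` and the coefficients there is always a pattern. -/
theorem RepPattern.of_coprime {k s N p : ℕ} (hk : 1 ≤ k) (hs : k < s) (hp : p.Prime)
    (hpk : ¬p ∣ k) {a : Fin s → ℕ} (ha : ∀ i, ¬p ∣ a i) : RepPattern k a N p := by
  classical
  have : Fact p.Prime := ⟨hp⟩
  obtain ⟨B, hB⟩ : ∃ B, B = (univ : Finset (ZMod p)).image fun x => x ^ k := ⟨_, rfl⟩
  have h0 : (0 : ZMod p) ∈ B := hB ▸ mem_image.2 ⟨0, mem_univ _, zero_pow (by omega)⟩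
  have hA : p - 1 ≤ k * (#B - 1) := by
    have h : #((univ : Finset (ZMod p)).erase 0) ≤
        k * #(((univ : Finset (ZMod p)).erase 0).image fun x => x ^ k) :=
      card_le_mul_card_image _ k fun b _ => (card_le_card (filter_subset_filter _
        (erase_subset _ _))).trans (card_pow_eq_le (by omega) b)
    rw [card_erase_of_mem (mem_univ _), card_univ, ZMod.card] at h
    refine h.trans (Nat.mul_le_mul_left k ?_)
    rw [← card_erase_of_mem h0]
    refine card_le_card fun b hb => ?_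
    obtain ⟨x, hx, rfl⟩ := mem_image.1 hb
    exact mem_erase.2 ⟨pow_ne_zero k (ne_of_mem_erase hx), hB ▸ mem_image_of_mem _ (mem_univ x)⟩
  have hsum : ∀ (m : ℕ) (c : Fin m → ZMod p), (∀ i, c i ≠ 0) → min p (m * (#B - 1) + 1) ≤
      #((univ : Finset (Fin m → ZMod p)).image fun x => ∑ i, c i * x i ^ k) := by
    intro m
    induction m with
    | zero => intro c _; simp
    | succ m ih =>
      intro c hc
      have ih := ih (fun i => c i.succ) fun i => hc i.succ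
      obtain ⟨T, hT⟩ : ∃ T, T = (univ : Finset (Fin m → ZMod p)).image
          fun x => ∑ i, c i.succ * x i ^ k := ⟨_, rfl⟩
      rw [← hT] at ih
      obtain ⟨B', hB'⟩ : ∃ B', B' = B.image fun b => c 0 * b := ⟨_, rfl⟩
      have hcard : #B' = #B := hB' ▸ card_image_of_injective _ (mul_right_injective₀ (hc 0))
      have hT1 : T.Nonempty := hT ▸ univ_nonempty.image _
      have hB1 : B'.Nonempty := hB' ▸ Finset.Nonempty.image ⟨0, h0⟩ _
      refine le_trans ?_ ((ZMod.cauchy_davenport hp hB1 hT1).trans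
        (card_le_card fun z hz => ?_))
      · have := card_pos.2 ⟨_, h0⟩
        have := hT1.card_pos
        rw [Nat.add_one_mul, hcard]
        omega
      · obtain ⟨b, hb, t, ht, rfl⟩ := mem_add.1 hz
        obtain ⟨b', hb', rfl⟩ := mem_image.1 (hB' ▸ hb)
        obtain ⟨u, -, rfl⟩ := mem_image.1 (hB ▸ hb')
        obtain ⟨x, -, rfl⟩ := mem_image.1 (hT ▸ ht)
        exact mem_image.2 ⟨Fin.cons u x, mem_univ _, by simp [Fin.sum_univ_succ]⟩
  obtain ⟨n, rfl⟩ : ∃ n, s = n + 1 := ⟨s - 1, by omega⟩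
  have hne : ∀ i, ((a i : ℕ) : ZMod p) ≠ 0 := fun i e =>
    ha i ((ZMod.natCast_eq_zero_iff _ _).1 e)
  have hfull : (univ : Finset (Fin n → ZMod p)).image
      (fun x => ∑ i, ((a i.succ : ℕ) : ZMod p) * x i ^ k) = univ := by
    refine eq_univ_of_card _ (le_antisymm (card_le_univ _) ?_)
    have h1 := hsum n (fun i => ((a i.succ : ℕ) : ZMod p)) fun i => hne _
    have h2 : p - 1 ≤ n * (#B - 1) := hA.trans (Nat.mul_le_mul_right _ (by omega))
    rw [ZMod.card]
    omega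
  obtain ⟨x, -, hx⟩ := mem_image.1 (hfull ▸ mem_univ ((N : ZMod p) - (a 0 : ℕ)))
  refine ⟨Fin.cons 1 fun i => (x i).val, 0, 0, a 0, by simp, fun h => ha 0
    (Int.natCast_dvd_natCast.1 h), Nat.zero_le _, by simpa using hp.not_dvd_one, ?_⟩
  rw [padicValNat.eq_zero_of_not_dvd hpk, mul_zero, zero_add, zero_add, pow_one,
    ← ZMod.intCast_zmod_eq_zero_iff_dvd]
  push_cast
  rw [Fin.sum_univ_succ]
  simp only [Fin.cons_zero, Fin.cons_succ, Nat.cast_one, one_pow, mul_one, ZMod.natCast_zmod_val,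
    hx]
  ring

/-- **Enough solutions modulo `p ^ L`.** -/
theorem repCongr_ge {k s N p : ℕ} (hp : p.Prime) (hk : 1 ≤ k) {a : Fin s → ℕ} {y : Fin s → ℕ}
    {i₀ : Fin s} {v : ℕ} {u : ℤ} (hcu : (a i₀ : ℤ) = (p : ℤ) ^ v * u) (hu : ¬(p : ℤ) ∣ u)
    (hy : ¬p ∣ y i₀) {G : ℕ} (hG : G = v + (2 * padicValNat p k + 1))
    (hsum : (p : ℤ) ^ G ∣ ((∑ i, a i * y i ^ k : ℕ) : ℤ) - N) {L : ℕ} (hL : G ≤ L) :
    (p ^ (L - G)) ^ (s - 1) ≤ repCongr k a N (p ^ L) := by
  classical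
  obtain ⟨γ, hγ⟩ : ∃ γ, γ = 2 * padicValNat p k + 1 := ⟨_, rfl⟩
  rw [← hγ] at hG
  have hq : p ^ L = p ^ G * p ^ (L - G) := by rw [← pow_add]; congr 1; omega
  obtain ⟨T, hT⟩ : ∃ T : Finset (Fin s → ℕ), T = Fintype.piFinset fun i : Fin s =>
      if i = i₀ then ({0} : Finset ℕ) else range (p ^ (L - G)) := ⟨_, rfl⟩
  obtain ⟨w, hw⟩ : ∃ w : (Fin s → ℕ) → Fin s → ℕ,
      w = fun t i => y i % p ^ G + p ^ G * t i := ⟨_, rfl⟩
  have hne : NeZero (p ^ L) := ⟨pow_ne_zero _ hp.ne_zero⟩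
  obtain ⟨u', hu'⟩ : ∃ u' : ℤ, (p : ℤ) ^ L ∣ u * u' - 1 := by
    have h1 := isUnit_primePow hp hu L
    refine ⟨((h1.unit⁻¹ : (ZMod (p ^ L))ˣ) : ZMod (p ^ L)).val, ?_⟩
    rw [← Int.natCast_pow, ← ZMod.intCast_zmod_eq_zero_iff_dvd]
    push_cast
    rw [ZMod.natCast_zmod_val, h1.mul_val_inv, sub_self]
  have hroot : ∀ t : Fin s → ℕ, ∃ z < p ^ L, (p : ℤ) ^ L ∣ (a i₀ : ℤ) * (z : ℤ) ^ k -
      ((N : ℤ) - ∑ i ∈ univ.erase i₀, (a i : ℤ) * (w t i : ℤ) ^ k) := by
    intro t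
    have hb : ((p ^ G : ℕ) : ℤ) ∣ (a i₀ : ℤ) * (y i₀ : ℤ) ^ k -
        ((N : ℤ) - ∑ i ∈ univ.erase i₀, (a i : ℤ) * (w t i : ℤ) ^ k) := by
      rw [← ZMod.intCast_zmod_eq_zero_iff_dvd]
      have h0 : ((((∑ i, a i * y i ^ k : ℕ) : ℤ) - N : ℤ) : ZMod (p ^ G)) = 0 := by
        rw [ZMod.intCast_zmod_eq_zero_iff_dvd]
        exact_mod_cast hsum
      have hwy : ∀ i, ((w t i : ℕ) : ZMod (p ^ G)) = (y i : ZMod (p ^ G)) := fun i => by
        rw [hw, ZMod.natCast_eq_natCast_iff', Nat.add_mul_mod_self_left, Nat.mod_mod]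
      push_cast at h0 ⊢
      simp only [hwy]
      rw [← add_sum_erase univ _ (mem_univ i₀)] at h0
      linear_combination h0
    obtain ⟨b, hbdef⟩ : ∃ b, b = (N : ℤ) - ∑ i ∈ univ.erase i₀, (a i : ℤ) * (w t i : ℤ) ^ k :=
      ⟨_, rfl⟩
    rw [← hbdef] at hb ⊢
    rw [hcu, hG] at hb
    push_cast at hb
    obtain ⟨b', rfl⟩ : (p : ℤ) ^ v ∣ b := by
      have h1 : (p : ℤ) ^ v ∣ (p : ℤ) ^ v * u * (y i₀ : ℤ) ^ k :=
        (dvd_mul_right _ _).mul_right _
      simpa using dvd_sub h1 ((pow_dvd_pow _ (Nat.le_add_right v γ)).trans hb)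
    rw [pow_add, mul_assoc, ← mul_sub,
      mul_dvd_mul_iff_left (pow_ne_zero v (Int.natCast_ne_zero.2 hp.ne_zero))] at hb
    have hyb : (p : ℤ) ^ γ ∣ (y i₀ : ℤ) ^ k - u' * b' := by
      rw [show (y i₀ : ℤ) ^ k - u' * b' =
        u' * (u * (y i₀ : ℤ) ^ k - b') - (u * u' - 1) * (y i₀ : ℤ) ^ k by ring]
      exact dvd_sub (hb.mul_left _) (((pow_dvd_pow _ (by omega)).trans hu').mul_right _)
    obtain ⟨z, -, hz⟩ := exists_pow_congr hp hk (fun h => hy (Int.natCast_dvd_natCast.1 h))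
      (hγ ▸ hyb) L (by omega)
    refine ⟨((z : ZMod (p ^ L))).val, ZMod.val_lt _, ?_⟩
    rw [← Int.natCast_pow p L, ← ZMod.intCast_zmod_eq_zero_iff_dvd] at hz hu' ⊢
    push_cast [hcu] at hz hu' ⊢
    rw [ZMod.natCast_zmod_val]
    have hcu' : ((a i₀ : ℕ) : ZMod (p ^ L)) = (p : ZMod (p ^ L)) ^ v * u := by
      have := congrArg (fun x : ℤ => (x : ZMod (p ^ L))) hcu
      simpa using this
    try rw [hcu']
    linear_combination (p : ZMod (p ^ L)) ^ v * u * hz + (p : ZMod (p ^ L)) ^ v * b' * hu'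
  choose root hrlt hrdvd using hroot
  refine le_trans (le_of_eq ?_) (card_le_card_of_injOn
    (fun t i => if i = i₀ then root t else w t i) (s := T) (fun t ht => ?_) fun t ht x hx e => ?_)
  · rw [hT, Fintype.card_piFinset, ← mul_prod_erase _ _ (mem_univ i₀), if_pos rfl, card_singleton,
      one_mul, prod_congr rfl fun l hl => by rw [if_neg (ne_of_mem_erase hl)], prod_const,
      card_erase_of_mem (mem_univ i₀), card_univ, Fintype.card_fin, card_range]
  · rw [mem_coe, hT, Fintype.mem_piFinset] at ht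
    rw [mem_coe, mem_filter, Fintype.mem_piFinset]
    dsimp only
    refine ⟨fun i => ?_, ?_⟩
    · rw [mem_range]
      split_ifs with h
      · exact hrlt t
      · have h1 := ht i
        rw [if_neg h, mem_range] at h1
        rw [hw, hq]
        calc y i % p ^ G + p ^ G * t i < p ^ G + p ^ G * t i :=
              Nat.add_lt_add_right (Nat.mod_lt _ (pow_pos hp.pos G)) _
          _ = p ^ G * (t i + 1) := by ring
          _ ≤ _ := Nat.mul_le_mul_left _ h1
    · rw [← add_sum_erase univ _ (mem_univ i₀), if_pos rfl,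
        sum_congr rfl fun i hi => by rw [if_neg (ne_of_mem_erase hi)]]
      have := hrdvd t
      push_cast
      convert this using 1
      ring
  · simp only [mem_coe, hT, Fintype.mem_piFinset] at ht hx
    funext i
    by_cases h : i = i₀
    · have h1 := ht i
      have h2 := hx i
      rw [if_pos h, mem_singleton] at h1 h2
      rw [h1, h2]
    · have h1 := congrFun e i
      simp only [if_neg h, hw] at h1
      exact Nat.eq_of_mul_eq_mul_left (pow_pos hp.pos G) (by omega)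

/-- The local factor. -/
def repDensity (k : ℕ) {s : ℕ} (a : Fin s → ℕ) (N p : ℕ) : ℂ := ∑' l, termAt k a N (p ^ l)

theorem repDensity_spec {k s : ℕ} (hk : 2 ≤ k) (h3k : 3 * k ≤ s) {a : Fin s → ℕ}
    (ha : ∀ i, 0 < a i) (N : ℕ) {p : ℕ} (hp : p.Prime) (hloc : RepPattern k a N p) :
    repDensity k a N p = ((repDensity k a N p).re : ℂ) ∧
      1 / ((p ^ (∑ i, a i + (2 * padicValNat p k + 1)) : ℕ) : ℝ) ^ (s - 1) ≤
        (repDensity k a N p).re := by
  obtain ⟨C, -, h⟩ := exists_termAt_tail hk h3k ha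
  have hsum : Summable fun l => termAt k a N (p ^ l) :=
    (h N 0).1.norm.of_norm.comp_injective (Nat.pow_right_injective hp.two_le)
  have ht : Tendsto (fun n => ∑ l ∈ range n, termAt k a N (p ^ l)) atTop
      (𝓝 (repDensity k a N p)) := hsum.hasSum.tendsto_sum_nat
  obtain ⟨y, i₀, v, u, hcu, hu, hv, hy, hdvd⟩ := hloc
  obtain ⟨G, hG⟩ : ∃ G, G = v + (2 * padicValNat p k + 1) := ⟨_, rfl⟩
  obtain ⟨H, hH⟩ : ∃ H, H = ∑ i, a i + (2 * padicValNat p k + 1) := ⟨_, rfl⟩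
  rw [← hG] at hdvd
  rw [← hH]
  have hGH : G ≤ H := by omega
  have key : ∀ᶠ m in atTop, (∑ l ∈ range m, termAt k a N (p ^ l)).im = 0 ∧
      1 / ((p ^ H : ℕ) : ℝ) ^ (s - 1) ≤ (∑ l ∈ range m, termAt k a N (p ^ l)).re := by
    refine eventually_atTop.2 ⟨G + 1, fun m hm => ?_⟩
    obtain ⟨L, rfl⟩ : ∃ L, m = L + 1 := ⟨m - 1, by omega⟩
    have hC := repCongr_ge hp (by omega) hcu hu hy hG hdvd (show G ≤ L by omega)
    obtain ⟨q, hq⟩ : ∃ q, q = p ^ L := ⟨_, rfl⟩
    rw [← repResidueSum_primePow a hp L, repResidueSum_eq a (pow_pos hp.pos L), ← hq,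
      show (q : ℂ) * repCongr k a N q / (q : ℂ) ^ s =
        (((q : ℝ) * repCongr k a N q / (q : ℝ) ^ s : ℝ) : ℂ) by push_cast; rfl,
      Complex.ofReal_im, Complex.ofReal_re]
    refine ⟨rfl, ?_⟩
    rw [← hq] at hC
    obtain ⟨n, rfl⟩ : ∃ n, s = n + 1 := ⟨s - 1, by omega⟩
    rw [Nat.add_sub_cancel] at hC ⊢
    have hq' : (0 : ℝ) < q := Nat.cast_pos.2 (hq ▸ pow_pos hp.pos L)
    have hp1 : (0 : ℝ) < ((p ^ G : ℕ) : ℝ) := Nat.cast_pos.2 (pow_pos hp.pos G)
    refine le_trans (one_div_le_one_div_of_le (pow_pos hp1 n) (pow_le_pow_left₀ hp1.le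
      (Nat.cast_le.2 (Nat.pow_le_pow_right hp.pos hGH)) n)) ?_
    rw [pow_succ' (q : ℝ) n, mul_div_mul_left _ _ hq'.ne', div_le_div_iff₀ (pow_pos hp1 n)
      (pow_pos hq' n), one_mul]
    have hpow : q ^ n = (p ^ (L - G)) ^ n * (p ^ G) ^ n := by
      rw [← mul_pow, ← pow_add, hq, Nat.sub_add_cancel (by omega)]
    rw [← Nat.cast_pow, ← Nat.cast_pow, ← Nat.cast_mul, Nat.cast_le, hpow]
    exact Nat.mul_le_mul_right _ hC
  have him : (repDensity k a N p).im = 0 :=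
    tendsto_nhds_unique ((Complex.continuous_im.tendsto _).comp ht)
      (tendsto_const_nhds.congr' (key.mono fun n hn => hn.1.symm))
  exact ⟨Complex.ext rfl (by rw [him, Complex.ofReal_im]),
    ge_of_tendsto ((Complex.continuous_re.tendsto _).comp ht) (key.mono fun n hn => hn.2)⟩

theorem exists_repDensity_near_one {k s : ℕ} (hk : 2 ≤ k) (hs : 3 * k ≤ s) {a : Fin s → ℕ}
    (ha : ∀ i, 0 < a i) : ∃ C : ℝ, 0 < C ∧
    ∀ N p : ℕ, p.Prime → 1 - C * (p : ℝ) ^ (-(7 / 5) : ℝ) ≤ (repDensity k a N p).re := by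
  obtain ⟨C, hC, h⟩ := exists_termAt_le hk hs ha
  obtain ⟨D, -, htail⟩ := exists_termAt_tail hk hs ha
  refine ⟨2 * C, by positivity, fun N p hp => ?_⟩
  have hp2 : (2 : ℝ) ≤ p := by exact_mod_cast hp.two_le
  obtain ⟨x, hx⟩ : ∃ x, x = (p : ℝ) ^ (-(7 / 5) : ℝ) := ⟨_, rfl⟩
  have hx0 : 0 ≤ x := hx ▸ by positivity
  have hx2 : x ≤ 1 / 2 := by
    rw [hx, Real.rpow_neg (by linarith), ← one_div]
    exact one_div_le_one_div_of_le two_pos
      (hp2.trans (Real.self_le_rpow_of_one_le (by linarith) (by norm_num)))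
  rw [← hx]
  have hsum : Summable fun l => termAt k a N (p ^ l) :=
    (htail N 0).1.norm.of_norm.comp_injective (Nat.pow_right_injective hp.two_le)
  have hg : HasSum (fun l : ℕ => C * x * x ^ l) (C * x * (1 - x)⁻¹) :=
    (hasSum_geometric_of_lt_one hx0 (by linarith)).mul_left _
  have htl : ‖∑' l, termAt k a N (p ^ (l + 1))‖ ≤ C * x * (1 - x)⁻¹ := by
    refine tsum_of_norm_bounded hg fun l => ((h (p ^ (l + 1))).2 N).trans (le_of_eq ?_)
    rw [hx, mul_assoc, ← pow_succ', ← Real.rpow_natCast (_ ^ _) (l + 1),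
      ← Real.rpow_mul (by linarith), mul_comm (-(7 / 5) : ℝ), Real.rpow_mul (by linarith),
      Real.rpow_natCast, Nat.cast_pow]
  have e : repDensity k a N p = 1 + ∑' l, termAt k a N (p ^ (l + 1)) := by
    rw [repDensity, hsum.tsum_eq_zero_add, pow_zero, termAt_one]
  rw [e, Complex.add_re, Complex.one_re]
  have h1 := (abs_le.1 ((Complex.abs_re_le_norm _).trans htl)).1
  have h2 : C * x * (1 - x)⁻¹ ≤ C * x * 2 := by
    refine mul_le_mul_of_nonneg_left ?_ (by positivity)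
    rw [inv_le_comm₀ (by linarith) two_pos]
    linarith
  linarith

/-- **The singular series is bounded below**, uniformly in `N`. -/
theorem exists_diagSeries_ge {k s : ℕ} (hk : 2 ≤ k) (hs : 3 * k ≤ s) {a : Fin s → ℕ}
    (ha : ∀ i, 0 < a i) :
    ∃ c : ℝ, 0 < c ∧ ∀ N, (∀ p, p.Prime → RepPattern k a N p) → c ≤ diagSeries k a N := by
  obtain ⟨C, hC, hnear⟩ := exists_repDensity_near_one hk hs ha
  obtain ⟨D, -, htail⟩ := exists_termAt_tail hk hs ha
  obtain ⟨b, hb⟩ : ∃ b : ℕ → ℝ, b = fun p : ℕ => C * (p : ℝ) ^ (-(7 / 5) : ℝ) := ⟨_, rfl⟩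
  have hbsum : Summable b := hb ▸ (Real.summable_nat_rpow.2 (by norm_num)).mul_left C
  have hb0 : ∀ p, 0 ≤ b p := fun p => by rw [hb]; positivity
  obtain ⟨p₀, hp₀⟩ := ((tendsto_sum_nat_add b).eventually
    (eventually_le_nhds (show (0 : ℝ) < 1 / 2 by norm_num))).exists
  obtain ⟨m, hm⟩ : ∃ m : ℕ → ℝ, m = fun p : ℕ =>
      1 / ((p ^ (∑ i, a i + (2 * padicValNat p k + 1)) : ℕ) : ℝ) ^ (s - 1) := ⟨_, rfl⟩
  obtain ⟨c, hc⟩ : ∃ c, c = (∏ p ∈ Nat.primesBelow p₀, m p) * (1 / 2) := ⟨_, rfl⟩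
  have hm0 : ∀ p ∈ Nat.primesBelow p₀, 0 < m p := fun p hp => by
    have := (Nat.mem_primesBelow.1 hp).2.pos
    rw [hm]; positivity
  have hc0 : 0 < c := hc ▸ mul_pos (prod_pos hm0) (by norm_num)
  refine ⟨c, hc0, fun N hloc => ?_⟩
  have hE := EulerProduct.eulerProduct (f := termAt k a N) (termAt_one k a N)
    (fun h => termAt_mul a N (by omega) h) (htail N 0).1.norm (termAt_zero k a N)
  refine ge_of_tendsto ((Complex.continuous_re.tendsto _).comp hE)
    (eventually_atTop.2 ⟨p₀, fun n hn => ?_⟩)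
  obtain ⟨S, hS⟩ : ∃ S, S = Nat.primesBelow n := ⟨_, rfl⟩
  obtain ⟨d, hd⟩ : ∃ d : ℕ → ℝ, d = fun p => (repDensity k a N p).re := ⟨_, rfl⟩
  have hspec : ∀ p, p.Prime → repDensity k a N p = (d p : ℂ) ∧ m p ≤ d p := fun p hp => by
    rw [hd, hm]
    exact repDensity_spec hk hs ha N hp (hloc p hp)
  have hreal : ∏ p ∈ S, ∑' e, termAt k a N (p ^ e) = ((∏ p ∈ S, d p : ℝ) : ℂ) := by
    rw [Complex.ofReal_prod]
    exact prod_congr rfl fun p hp => (hspec p (Nat.mem_primesBelow.1 (hS ▸ hp)).2).1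
  simp only [Function.comp, ← hS, hreal, Complex.ofReal_re]
  have hlow : S.filter (fun p => p < p₀) = Nat.primesBelow p₀ := by
    ext p
    simp only [hS, mem_filter, Nat.mem_primesBelow]
    exact ⟨fun h => ⟨h.2, h.1.2⟩, fun h => ⟨⟨h.1.trans_le hn, h.2⟩, h.1⟩⟩
  rw [← prod_filter_mul_prod_filter_not S (fun p => p < p₀), hlow, hc]
  have hsum : ∑ p ∈ S.filter (fun p => ¬p < p₀), b p ≤ 1 / 2 := by
    refine le_trans ?_ hp₀
    refine (sum_le_sum_of_subset_of_nonneg (t := Ico p₀ n) (fun p hp => ?_)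
      fun p _ _ => hb0 p).trans ?_
    · rw [hS, mem_filter, Nat.mem_primesBelow] at hp
      exact mem_Ico.2 ⟨not_lt.1 hp.2, hp.1.1⟩
    · rw [sum_Ico_eq_sum_range]
      simp only [add_comm p₀]
      exact (((summable_nat_add_iff p₀).2 hbsum)).sum_le_tsum _ fun i _ => hb0 _
  refine mul_le_mul (prod_le_prod (fun p hp => (hm0 p hp).le) fun p hp =>
    (hspec p (Nat.mem_primesBelow.1 hp).2).2) ?_ (by norm_num) (prod_nonneg fun p hp => ?_)
  · have hle1 : ∀ p ∈ S.filter (fun p => ¬p < p₀), b p ≤ 1 := fun p hp =>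
      ((single_le_sum (fun q _ => hb0 q) hp).trans hsum).trans (by norm_num)
    refine le_trans (by linarith) ((one_sub_sum_le_prod _ b (fun p _ => hb0 p) hle1).trans
      (prod_le_prod (fun p hp => sub_nonneg.2 (hle1 p hp)) fun p hp => ?_))
    rw [hd, hb]
    exact hnear N p (Nat.mem_primesBelow.1 (hS ▸ (mem_filter.1 hp).1)).2
  · exact le_trans (hm0 p hp).le (hspec p (Nat.mem_primesBelow.1 hp).2).2

/-- **`≫ N ^ (s/k - 1)` representations.** -/
theorem exists_coefReps_ge {k s : ℕ} (hk : 2 ≤ k) (hs : 2 ^ k + 1 ≤ s) (h3k : 3 * k ≤ s)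
    {a : Fin s → ℕ} (ha : ∀ i, 0 < a i) : ∃ (c : ℝ) (N₀ : ℕ), 0 < c ∧
    ∀ N, N₀ ≤ N → (∀ p, p.Prime → RepPattern k a N p) →
      c * (N : ℝ) ^ ((s : ℝ) / k - 1) ≤ coefReps k a N := by
  obtain ⟨C, δ, hC, hδ, h⟩ := exists_rep_asymptotic hk hs h3k ha
  obtain ⟨c, hc, hser⟩ := exists_diagSeries_ge hk h3k ha
  obtain ⟨hκ0, -⟩ := scaleAt_mem (k := k) ha
  obtain ⟨G, hG⟩ : ∃ G : ℝ,
      G = Real.Gamma (1 + 1 / (k : ℝ)) ^ s / Real.Gamma ((s : ℝ) / k) := ⟨_, rfl⟩
  have hk0 : (0 : ℝ) < k := by exact_mod_cast (show 0 < k by omega)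
  have hs0 : (0 : ℝ) < s := by
    exact_mod_cast (show 0 < s by omega)
  have hG0 : 0 < G := hG ▸ div_pos (pow_pos (Real.Gamma_pos_of_pos (by positivity)) s)
    (Real.Gamma_pos_of_pos (by positivity))
  obtain ⟨η, hη⟩ : ∃ η, η = scaleAt k a * c * G := ⟨_, rfl⟩
  have hη0 : 0 < η := hη ▸ mul_pos (mul_pos hκ0 hc) hG0
  have hlim : Tendsto (fun N : ℕ => C * (N : ℝ) ^ (-δ)) atTop (𝓝 0) := by
    simpa using ((tendsto_rpow_neg_atTop hδ).comp tendsto_natCast_atTop_atTop).const_mul C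
  obtain ⟨N₁, hN₁⟩ := eventually_atTop.1
    (hlim.eventually (eventually_le_nhds (half_pos hη0)))
  refine ⟨η / 2, max N₁ (∑ i, a i + 1), half_pos hη0, fun N hN hloc => ?_⟩
  have hNa : ∑ i, a i + 1 ≤ N := le_trans (le_max_right _ _) hN
  have hN1 : 1 ≤ N := by omega
  have hNr : (0 : ℝ) < N := Nat.cast_pos.2 hN1
  have h1 := (abs_le.1 (h N fun i => by
    have := single_le_sum (f := a) (fun i _ => Nat.zero_le _) (mem_univ i)
    omega)).1
  rw [← hG] at h1
  have h2 := hN₁ N (le_trans (le_max_left _ _) hN)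
  have hY : 0 ≤ (N : ℝ) ^ ((s : ℝ) / k - 1) := by positivity
  have h3 := mul_le_mul_of_nonneg_right (mul_le_mul_of_nonneg_right
    (mul_le_mul_of_nonneg_left (hser N hloc) hκ0.le) hG0.le) hY
  rw [← hη] at h3
  have h4 : C * (N : ℝ) ^ ((s : ℝ) / k - 1 - δ) ≤ η / 2 * (N : ℝ) ^ ((s : ℝ) / k - 1) := by
    rw [sub_eq_add_neg _ δ, Real.rpow_add hNr, mul_left_comm, mul_comm ((N : ℝ) ^ _)]
    exact mul_le_mul_of_nonneg_right h2 hY
  linarith

end FA.DiagonalRep

end
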